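/-
S17lib / NC / FunT  (helper2) — Project G (S17), block (T): the function `t`.

There is a NONCONSTANT function `t ∈ FBar N`, FIXED by `G_ℚ`, with poles ONLY at the cusp `∞`.

Construction (no `q`-expansion principle): a nonconstant `f ∈ L((g+1)·∞)` (Riemann's inequality);
its `G_ℚ`-orbit `O` is finite (open stabilisers) and consists of functions regular off `∞` (`∞` is
fixed); the coefficients of `∏_{h ∈ O} (X - h)` are `G_ℚ`-fixed and regular off `∞`, and they are not
all constant (otherwise `f` would be algebraic over `ℚ̄`).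
-/
import Mathlib
import Fermat.Prelude.Def_AlgebraicCurve_BaseChangeGalois
import Fermat.Agent.S18lib.Setup.CurveRR
import Fermat.Agent.S18lib.Cech.CurveBasics
import Fermat.Agent.S18lib.Gin0.Genus
import Fermat.Agent.S29lib.GH.OpenStab
import Fermat.Agent.S15lib.Cusp.Inf

set_option autoImplicit false
set_option linter.unusedSectionVars false

noncomputable section

namespace Fermat.Agent.S17lib.NC

open AlgebraicCurve Polynomial Fermat.Agent.S18lib Fermat.Agent.ProgramR

section Generic

variable {K F : Type*} [Field K] [Field F] [Algebra K F]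

/-- `f` is regular away from `inf` -/
def RegOff (inf : Place K F) (f : F) : Prop := ∀ P : Place K F, P ≠ inf → 0 ≤ P.ord f

theorem RegOff.smul {inf : Place K F} {f : F} (hf : RegOff inf f) (g : SemilinearAut K F)
    (hg : g • inf = inf) : RegOff inf (g • f) := by
  intro P hP
  have h1 := SemilinearAut.ord_smul g (g⁻¹ • P) f
  rw [smul_inv_smul] at h1
  rw [h1]
  apply hf
  intro h
  apply hP
  rw [inv_smul_eq_iff] at h
  rw [h, hg]

/-- the polynomial `∏_{h ∈ O} (X - h)` -/
def orbitPoly (O : Finset F) : F[X] := ∏ h ∈ O, (X - C h)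

theorem orbitPoly_monic (O : Finset F) : (orbitPoly O).Monic :=
  monic_prod_of_monic _ _ fun h _ => monic_X_sub_C h

theorem orbitPoly_map_of_stable (O : Finset F) (φ : F ≃+* F) (hO : ∀ h ∈ O, φ h ∈ O) :
    (orbitPoly O).map (φ : F →+* F) = orbitPoly O := by
  classical
  have himg : O.image φ = O :=
    Finset.eq_of_subset_of_card_le (Finset.image_subset_iff.mpr hO)
      (by rw [Finset.card_image_of_injective _ φ.injective])
  unfold orbitPoly
  rw [Polynomial.map_prod]
  conv_rhs => rw [← himg]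
  rw [Finset.prod_image (fun a _ b _ h => φ.injective h)]
  refine Finset.prod_congr rfl fun h _ => ?_
  rw [Polynomial.map_sub, map_X, map_C]
  rfl

theorem coeff_orbitPoly_fixed (O : Finset F) (φ : F ≃+* F) (hO : ∀ h ∈ O, φ h ∈ O) (k : ℕ) :
    φ ((orbitPoly O).coeff k) = (orbitPoly O).coeff k := by
  have h := congrArg (fun p => p.coeff k) (orbitPoly_map_of_stable O φ hO)
  simp only [coeff_map] at h
  exact h

theorem coeff_orbitPoly_mem (O : Finset F) (A : Subring F) (hO : ∀ h ∈ O, h ∈ A) (k : ℕ) :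
    (orbitPoly O).coeff k ∈ A := by
  have hl : orbitPoly O ∈ liftsRing A.subtype := by
    unfold orbitPoly
    refine Subring.prod_mem _ fun h hh => ?_
    refine Subring.sub_mem _ ?_ ?_
    · rw [← lifts_iff_liftsRing]
      exact X_mem_lifts _
    · rw [← lifts_iff_liftsRing]
      exact C_mem_lifts A.subtype ⟨h, hO h hh⟩
  rw [← lifts_iff_liftsRing, lifts_iff_coeff_lifts] at hl
  obtain ⟨a, ha⟩ := hl k
  rw [← ha]
  exact a.2

theorem exists_coeff_nonconst (hK : ∀ f : F, IsIntegral K f → ∃ c, f = algebraMap K F c)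
    (O : Finset F) {f : F} (hfO : f ∈ O) (hf : ∀ c, f ≠ algebraMap K F c) :
    ∃ k, ∀ c : K, (orbitPoly O).coeff k ≠ algebraMap K F c := by
  by_contra hcon
  push Not at hcon
  have hl : orbitPoly O ∈ lifts (algebraMap K F) :=
    (lifts_iff_coeff_lifts _).mpr fun k => by
      obtain ⟨c, hc⟩ := hcon k
      exact ⟨c, hc.symm⟩
  obtain ⟨q, hq, -, hqm⟩ := lifts_and_degree_eq_and_monic hl (orbitPoly_monic O)
  have hroot : aeval f q = 0 := by
    rw [aeval_def, ← eval_map, hq]
    unfold orbitPoly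
    rw [eval_prod]
    exact Finset.prod_eq_zero hfO (by simp)
  obtain ⟨c, hc⟩ := hK f ⟨q, hqm, hroot⟩
  exact hf c hc

/-- over an algebraically closed constant field, integral elements are constants -/
theorem const_of_isIntegral [IsAlgClosed K] (f : F) (hf : IsIntegral K f) :
    ∃ c, f = algebraMap K F c := by
  have h1 := IsAlgClosed.degree_eq_one_of_irreducible K (minpoly.irreducible hf)
  obtain ⟨c, hc⟩ := minpoly.mem_range_of_degree_eq_one K f h1
  exact ⟨c, hc.symm⟩

/-- **a fixed nonconstant function regular off `inf`** from one with a finite orbit -/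
theorem exists_fixed_of_finite_orbit {Γ : Type*} [Group Γ] (ρ : Γ →* SemilinearAut K F)
    (inf : Place K F) (hρinf : ∀ γ, ρ γ • inf = inf)
    (hK : ∀ f : F, IsIntegral K f → ∃ c, f = algebraMap K F c)
    (f : F) (hfc : ∀ c, f ≠ algebraMap K F c) (hfreg : RegOff inf f)
    (horb : (Set.range fun γ : Γ => ρ γ • f).Finite) :
    ∃ t : F, (∀ c, t ≠ algebraMap K F c) ∧ (∀ γ, ρ γ • t = t) ∧ RegOff inf t := by
  classical
  set O : Finset F := horb.toFinset with hO
  have hmemO : ∀ h, h ∈ O ↔ ∃ γ, ρ γ • f = h := by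
    intro h
    rw [hO, Set.Finite.mem_toFinset, Set.mem_range]
  have hfO : f ∈ O := (hmemO f).mpr ⟨1, by rw [map_one, one_smul]⟩
  have hstab : ∀ γ, ∀ h ∈ O, ρ γ • h ∈ O := by
    intro γ h hh
    obtain ⟨γ', rfl⟩ := (hmemO h).mp hh
    exact (hmemO _).mpr ⟨γ * γ', by rw [map_mul, mul_smul]⟩
  have hreg : ∀ h ∈ O, RegOff inf h := by
    intro h hh
    obtain ⟨γ, rfl⟩ := (hmemO h).mp hh
    exact hfreg.smul (ρ γ) (hρinf γ)
  obtain ⟨k, hk⟩ := exists_coeff_nonconst hK O hfO hfc
  refine ⟨(orbitPoly O).coeff k, hk, fun γ => ?_, fun P hP => ?_⟩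
  · rw [SemilinearAut.smul_def]
    exact coeff_orbitPoly_fixed O (SemilinearAut.toRingAut (ρ γ))
      (fun h hh => by
        have := hstab γ h hh
        rwa [SemilinearAut.smul_def] at this) k
  · rw [← FF.mem_iff_ord_nonneg]
    exact coeff_orbitPoly_mem O P.toValuationSubring.toSubring
      (fun h hh => (FF.mem_iff_ord_nonneg P h).mpr (hreg h hh P hP)) k

/-- a nonconstant function with poles only at `inf` (Riemann's inequality) -/
theorem exists_nonconst_regOff {g : ℕ} (hF : IsCurveOfGenus K F g) (inf : Place K F) :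
    ∃ f : F, (∀ c, f ≠ algebraMap K F c) ∧ RegOff inf f := by
  set E : Divisor K F := Finsupp.single inf ((g : ℤ) + 1) with hE
  have hdegE : Divisor.degree E = (g : ℤ) + 1 := by
    rw [hE, Divisor.degree_single, hF.deg_eq_one inf]
    simp
  have h2 : 2 ≤ Module.finrank K (riemannRochSpace E) := by
    have := hF.riemann_le E
    rw [hdegE] at this
    omega
  have : FiniteDimensional K (riemannRochSpace E) := hF.finiteDimensional E
  -- not every element of `L(E)` is a constant
  by_contra hcon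
  push Not at hcon
  have hle : riemannRochSpace E ≤ K ∙ (1 : F) := by
    intro f hf
    by_cases hc : ∀ c, f ≠ algebraMap K F c
    · exfalso
      obtain ⟨P, hP, hlt⟩ : ∃ P, P ≠ inf ∧ P.ord f < 0 := by
        have := hcon f hc
        unfold RegOff at this
        push Not at this
        exact this
      have hf0 : f ≠ 0 := by
        rintro rfl
        simp at hlt
      have := (Cech.mem_rr_of_ne hf0).mp hf P
      rw [hE, Finsupp.single_eq_of_ne hP] at this
      omega
    · push Not at hc
      obtain ⟨c, rfl⟩ := hc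
      rw [Submodule.mem_span_singleton]
      exact ⟨c, by rw [Algebra.smul_def, mul_one]⟩
  have h1 : Module.finrank K (riemannRochSpace E) ≤ 1 := by
    have h3 := Submodule.finrank_mono hle
    have h4 : Module.finrank K (K ∙ (1 : F)) ≤ 1 := by
      have := finrank_span_singleton (K := K) (one_ne_zero : (1 : F) ≠ 0)
      omega
    omega
  omega

end Generic

/-! ### the modular instance -/

section Modular

open ModularCurve Fermat.Agent.S15lib

local notation "Qb" => AlgebraicClosure ℚ
local notation "GQ" => (AlgebraicClosure ℚ ≃ₐ[ℚ] AlgebraicClosure ℚ)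

variable (N : ℕ) [NeZero N]

/-- every element of `FBar N` has a finite `G_ℚ`-orbit -/
theorem finite_orbit_FB (f : FB N) : (Set.range fun σ : GQ => gal N σ • f).Finite := by
  classical
  obtain ⟨L, hL, hLf⟩ := S29lib.GH.finiteLevel_fix_elem N f
  have : FiniteDimensional ℚ L := hL
  let φ : GQ → (L →ₐ[ℚ] Qb) := fun σ => (σ : Qb →ₐ[ℚ] Qb).comp L.val
  have hfac : ∀ σ τ : GQ, φ σ = φ τ → gal N σ • f = gal N τ • f := by
    intro σ τ h
    have hfix : ∀ y ∈ L, (τ⁻¹ * σ) y = y := by
      intro y hy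
      have := congrArg (fun ψ : L →ₐ[ℚ] Qb => ψ ⟨y, hy⟩) h
      change σ y = τ y at this
      rw [AlgEquiv.mul_apply, this]
      exact τ.symm_apply_apply y
    have h1 := hLf (τ⁻¹ * σ) hfix
    change arithmeticGalois (modularFunctionFieldFull N) (τ⁻¹ * σ) • f = f at h1
    have h2 : arithmeticGalois (modularFunctionFieldFull N) (τ⁻¹ * σ) =
        (arithmeticGalois (modularFunctionFieldFull N) τ)⁻¹ *
          arithmeticGalois (modularFunctionFieldFull N) σ := by
      rw [map_mul, map_inv]
    rw [h2, mul_smul, inv_smul_eq_iff] at h1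
    exact h1
  have hfinL : Finite (L →ₐ[ℚ] Qb) := inferInstance
  refine (Set.finite_univ.image fun a : L →ₐ[ℚ] Qb =>
    gal N (Function.invFun φ a) • f).subset ?_
  rintro _ ⟨σ, rfl⟩
  refine ⟨φ σ, Set.mem_univ _, ?_⟩
  exact hfac _ _ (Function.invFun_eq ⟨σ, rfl⟩)

/-- **block (T)**: a nonconstant `G_ℚ`-fixed function on `X₀(N)` with poles only at the cusp `∞` -/
theorem exists_t :
    ∃ t : FB N, (∀ c : Qb, t ≠ algebraMap Qb (FB N) c) ∧ (∀ σ : GQ, gal N σ • t = t) ∧
      ∀ P : Place Qb (FB N), P ≠ Cusp.cInf N → 0 ≤ P.ord t := by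
  obtain ⟨g, hF, -⟩ := S18lib.Gin0.exists_isCurveOfGenus_FBar N
  obtain ⟨f, hfc, hfreg⟩ := exists_nonconst_regOff hF (Cusp.cInf N)
  exact exists_fixed_of_finite_orbit (K := Qb) (F := FB N) (Γ := GQ)
    (arithmeticGalois (modularFunctionFieldFull N)) (Cusp.cInf N)
    (fun σ => Cusp.gal_smul_cInf N σ) (fun f hf => const_of_isIntegral f hf) f hfc hfreg
    (finite_orbit_FB N f)

/-- a nonconstant function regular off `inf` has a pole at `inf` -/
theorem pole_of_nonconst {K F : Type*} [Field K] [Field F] [Algebra K F] {g : ℕ}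
    (hF : IsCurveOfGenus K F g) (inf : Place K F) {t : F}
    (htc : ∀ c : K, t ≠ algebraMap K F c) (hreg : ∀ P : Place K F, P ≠ inf → 0 ≤ P.ord t) :
    inf.ord t < 0 := by
  by_contra h
  push Not at h
  have hmem : t ∈ riemannRochSpace (0 : Divisor K F) := by
    rw [Cech.mem_rr_iff]
    intro v
    right
    rw [Finsupp.zero_apply, neg_zero]
    by_cases hv : v = inf
    · rw [hv]; exact h
    · exact hreg v hv
  rw [hF.riemannRochSpace_zero] at hmem
  obtain ⟨c, hc⟩ := (Algebra.mem_bot).mp hmem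
  exact htc c hc.symm

/-- **block (T)** with the pole: nonconstant, `G_ℚ`-fixed, regular off `∞`, pole at `∞` -/
theorem exists_t_pole :
    ∃ t : FB N, (∀ c : Qb, t ≠ algebraMap Qb (FB N) c) ∧ (∀ σ : GQ, gal N σ • t = t) ∧
      (∀ P : Place Qb (FB N), P ≠ Cusp.cInf N → 0 ≤ P.ord t) ∧ (Cusp.cInf N).ord t < 0 := by
  obtain ⟨g, hF, -⟩ := S18lib.Gin0.exists_isCurveOfGenus_FBar N
  obtain ⟨t, h1, h2, h3⟩ := exists_t N
  exact ⟨t, h1, h2, h3, pole_of_nonconst hF (Cusp.cInf N) h1 h3⟩

end Modular

end Fermat.Agent.S17lib.NC
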