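/-
S17lib / NC / Equivariant  (helper2) — Project G (S17), block (NC), generic part.

Setting: a function field `F / K` all of whose places have degree one, a base place `inf`, a
family `ρ γ` of semilinear automorphisms of `F / K` fixing `inf` and a nonconstant function `x`.

* `clsInf inf D = [D − (deg D)·inf]`, `IsRep D w` (effective, `inf ∉ supp D`, class `w`),
  `IsRed D w` (a representative of minimal degree, the `inf`-reduced representative);
* `IsRed.unique`: the reduced representative is UNIQUE;
* `IsRed.smul_eq`: hence it is stable under every `ρ γ` fixing the class;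
* `finite_fixed_classes`: (NC) Northcott for the height `divHt` of the reduced representative on
  the classes fixed by all `ρ γ`, from a bounded-degree Northcott hypothesis on `K`.
-/
import Mathlib
import Fermat.Prelude.Def_AlgebraicCurve_BaseChangeGalois
import Fermat.Agent.S37lib.ES.JVal

set_option autoImplicit false

noncomputable section

namespace Fermat.Agent.S17lib.NC

open AlgebraicCurve Fermat.Agent.S18lib Fermat.Agent.S37lib.ES

variable {K F : Type*} [Field K] [Field F] [Algebra K F]

/-! ### the class `[D − (deg D)·inf]` -/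

/-- `D − (deg D)·inf` -/
def shiftInf (inf : Place K F) (D : Divisor K F) : Divisor K F :=
  D - Finsupp.single inf (Divisor.degree D)

theorem degree_shiftInf {inf : Place K F} (hinf : inf.deg = 1) (D : Divisor K F) :
    Divisor.degree (shiftInf inf D) = 0 := by
  rw [shiftInf, map_sub, Divisor.degree_single, hinf]
  simp

theorem shiftInf_add (inf : Place K F) (D E : Divisor K F) :
    shiftInf inf (D + E) = shiftInf inf D + shiftInf inf E := by
  unfold shiftInf
  rw [map_add, Finsupp.single_add]
  abel

/-- the class `[D − (deg D)·inf]` -/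
def clsInf (inf : Place K F) (hinf : inf.deg = 1) (D : Divisor K F) : Pic0 K F :=
  Pic0.mk ⟨shiftInf inf D, degree_shiftInf hinf D⟩

theorem clsInf_add (inf : Place K F) (hinf : inf.deg = 1) (D E : Divisor K F) :
    clsInf inf hinf (D + E) = clsInf inf hinf D + clsInf inf hinf E := by
  unfold clsInf
  rw [← Pic0.mk_add]
  exact congrArg Pic0.mk (Subtype.ext (shiftInf_add inf D E))

theorem clsInf_eq_iff (inf : Place K F) (hinf : inf.deg = 1) (D D' : Divisor K F) :
    clsInf inf hinf D = clsInf inf hinf D' ↔
      shiftInf inf D' - shiftInf inf D ∈ Divisor.principal (K := K) (F := F) := by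
  unfold clsInf Pic0.mk
  rw [QuotientAddGroup.eq, AddSubgroup.mem_addSubgroupOf]
  have : ((-(⟨shiftInf inf D, degree_shiftInf hinf D⟩ : Divisor.degZero (K := K) (F := F)) +
      ⟨shiftInf inf D', degree_shiftInf hinf D'⟩ : Divisor.degZero (K := K) (F := F)) :
      Divisor K F) = shiftInf inf D' - shiftInf inf D := by
    push_cast
    abel
  rw [this]

/-- `D` is an effective representative of the class `w`, with `inf` not in its support -/
structure IsRep (inf : Place K F) (hinf : inf.deg = 1) (D : Divisor K F) (w : Pic0 K F) :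
    Prop where
  nonneg : ∀ v, 0 ≤ D v
  inf_eq : D inf = 0
  cls_eq : clsInf inf hinf D = w

/-- `D` is an `inf`-reduced representative of `w`: a representative of minimal degree -/
def IsRed (inf : Place K F) (hinf : inf.deg = 1) (D : Divisor K F) (w : Pic0 K F) : Prop :=
  IsRep inf hinf D w ∧ ∀ D', IsRep inf hinf D' w → Divisor.degree D ≤ Divisor.degree D'

/-! ### uniqueness of the reduced representative -/

section Unique

variable [HasPrincipalDivisors K F]

/-- two distinct representatives of the same degree produce a representative of smaller degree -/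
theorem exists_smaller_rep {inf : Place K F} (hinf : inf.deg = 1) {D D' : Divisor K F}
    {w : Pic0 K F} (hD : IsRep inf hinf D w) (hD' : IsRep inf hinf D' w)
    (hdeg : Divisor.degree D = Divisor.degree D') (hne : D ≠ D') :
    ∃ E, IsRep inf hinf E w ∧ Divisor.degree E < Divisor.degree D := by
  have hcls : clsInf inf hinf D = clsInf inf hinf D' := hD.cls_eq.trans hD'.cls_eq.symm
  rw [clsInf_eq_iff] at hcls
  have hsub : shiftInf inf D' - shiftInf inf D = D' - D := by
    unfold shiftInf
    rw [hdeg]
    abel
  rw [hsub] at hcls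
  obtain ⟨f, hf0, hf⟩ := hcls
  -- `f` is not constant
  have hfc : ∀ c : K, f ≠ algebraMap K F c := by
    intro c hc
    apply hne
    ext v
    have := hf v
    rw [hc, Cech.ord_const, Finsupp.sub_apply] at this
    omega
  -- `f` is regular at `inf`
  have hfinf : 0 ≤ inf.ord f := by
    have := hf inf
    rw [Finsupp.sub_apply, hD.inf_eq, hD'.inf_eq] at this
    omega
  obtain ⟨c, hc⟩ := Fermat.Agent.S37lib.B3.exists_value inf hinf hfinf
  have hψ0 : f - algebraMap K F c ≠ 0 := sub_ne_zero.mpr (hfc c)
  have hk : 0 < inf.ord (f - algebraMap K F c) := hc.resolve_left hψ0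
  set ψ : F := f - algebraMap K F c with hψ
  set k : ℤ := inf.ord ψ with hkdef
  -- the order of `ψ` is at least `-D v`
  have hord : ∀ v : Place K F, -D v ≤ v.ord ψ := by
    intro v
    have h1 : f = 0 ∨ -D v ≤ v.ord f := by
      right
      have := hf v
      rw [Finsupp.sub_apply] at this
      have := hD'.nonneg v
      omega
    have h2 : -algebraMap K F c = 0 ∨ -D v ≤ v.ord (-algebraMap K F c) := by
      right
      rw [Cech.ord_neg, Cech.ord_const]
      have := hD.nonneg v
      omega
    have h3 := Cech.ord_add_ge v h1 h2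
    rw [← sub_eq_add_neg] at h3
    exact h3.resolve_left hψ0
  refine ⟨D + divOf (K := K) ψ - Finsupp.single inf k, ⟨?_, ?_, ?_⟩, ?_⟩
  · intro v
    rw [Finsupp.sub_apply, Finsupp.add_apply, divOf_apply hψ0]
    by_cases hv : v = inf
    · subst hv
      rw [Finsupp.single_eq_same, hD.inf_eq]
      omega
    · rw [Finsupp.single_eq_of_ne hv]
      have := hord v
      omega
  · rw [Finsupp.sub_apply, Finsupp.add_apply, divOf_apply hψ0, Finsupp.single_eq_same,
      hD.inf_eq]
    omega
  · rw [← hD.cls_eq, clsInf_eq_iff]
    have : shiftInf inf D - shiftInf inf (D + divOf (K := K) ψ - Finsupp.single inf k) =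
        -divOf (K := K) ψ := by
      unfold shiftInf
      rw [map_sub, map_add, degree_divOf, Divisor.degree_single, hinf, Finsupp.single_sub,
        Finsupp.single_add]
      simp only [Nat.cast_one, mul_one, add_zero, Finsupp.single_zero]
      abel
    rw [this]
    exact neg_mem (divOf_mem_principal hψ0)
  · rw [map_sub, map_add, degree_divOf, Divisor.degree_single, hinf]
    simp only [Nat.cast_one, mul_one, add_zero]
    omega

/-- **the `inf`-reduced representative is unique** -/
theorem IsRed.unique {inf : Place K F} {hinf : inf.deg = 1} {D D' : Divisor K F}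
    {w : Pic0 K F} (hD : IsRed inf hinf D w) (hD' : IsRed inf hinf D' w) : D = D' := by
  by_contra hne
  have hdeg : Divisor.degree D = Divisor.degree D' :=
    le_antisymm (hD.2 D' hD'.1) (hD'.2 D hD.1)
  obtain ⟨E, hE, hlt⟩ := exists_smaller_rep hinf hD.1 hD'.1 hdeg hne
  have := hD.2 E hE
  omega

end Unique

/-- every class with a representative has a reduced representative -/
theorem exists_isRed_of_isRep {inf : Place K F} {hinf : inf.deg = 1} {D : Divisor K F}
    {w : Pic0 K F} (hD : IsRep inf hinf D w) : ∃ D₀, IsRed inf hinf D₀ w := by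
  classical
  have hex : ∃ n : ℕ, ∃ D', IsRep inf hinf D' w ∧ Divisor.degree D' = n :=
    ⟨(Divisor.degree D).toNat, D, hD,
      (Int.toNat_of_nonneg (Cech.degree_nonneg_of_nonneg hD.nonneg)).symm⟩
  obtain ⟨D₀, hD₀, hdeg₀⟩ := Nat.find_spec hex
  refine ⟨D₀, hD₀, fun D' hD' => ?_⟩
  have h0 : 0 ≤ Divisor.degree D' := Cech.degree_nonneg_of_nonneg hD'.nonneg
  have := Nat.find_min' hex ⟨D', hD', (Int.toNat_of_nonneg h0).symm⟩
  omega

/-! ### equivariance -/

section Equivariance

variable {inf : Place K F} {hinf : inf.deg = 1}

theorem shiftInf_smul (g : SemilinearAut K F) (hg : g • inf = inf) (D : Divisor K F) :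
    shiftInf inf (g • D) = g • shiftInf inf D := by
  unfold shiftInf
  rw [SemilinearAut.degree_smul, smul_sub, SemilinearAut.smul_single, hg]

theorem clsInf_smul (g : SemilinearAut K F) (hg : g • inf = inf) (D : Divisor K F) :
    clsInf inf hinf (g • D) = g • clsInf inf hinf D := by
  unfold clsInf
  rw [SemilinearAut.pic0_smul_mk]
  exact congrArg Pic0.mk (Subtype.ext (shiftInf_smul g hg D))

theorem inv_smul_inf {g : SemilinearAut K F} (hg : g • inf = inf) : g⁻¹ • inf = inf := by
  rw [inv_smul_eq_iff, hg]

theorem IsRep.smul {D : Divisor K F} {w : Pic0 K F} (hD : IsRep inf hinf D w)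
    (g : SemilinearAut K F) (hg : g • inf = inf) : IsRep inf hinf (g • D) (g • w) := by
  refine ⟨fun v => ?_, ?_, ?_⟩
  · rw [SemilinearAut.divisor_smul_apply]
    exact hD.nonneg _
  · rw [SemilinearAut.divisor_smul_apply, inv_smul_inf hg]
    exact hD.inf_eq
  · rw [clsInf_smul g hg, hD.cls_eq]

theorem IsRed.smul {D : Divisor K F} {w : Pic0 K F} (hD : IsRed inf hinf D w)
    (g : SemilinearAut K F) (hg : g • inf = inf) : IsRed inf hinf (g • D) (g • w) := by
  refine ⟨hD.1.smul g hg, fun D' hD' => ?_⟩
  have h1 := hD'.smul g⁻¹ (inv_smul_inf hg)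
  rw [inv_smul_smul] at h1
  have h2 := hD.2 _ h1
  rw [SemilinearAut.degree_smul] at h2 ⊢
  exact h2

/-- **the reduced representative of a fixed class is fixed** -/
theorem IsRed.smul_eq [HasPrincipalDivisors K F] {D : Divisor K F} {w : Pic0 K F}
    (hD : IsRed inf hinf D w) (g : SemilinearAut K F) (hg : g • inf = inf) (hw : g • w = w) :
    g • D = D := by
  have h1 := hD.smul g hg
  rw [hw] at h1
  exact h1.unique hD

end Equivariance

end Fermat.Agent.S17lib.NC
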