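/-
S17lib / NC / Finite  (helper2) — Project G (S17), block (NC), generic part II:
Northcott for the height of the `inf`-reduced representative on the classes fixed by a family
of semilinear automorphisms, from a bounded-orbit Northcott hypothesis on the constant field.
-/
import Mathlib
import Fermat.Agent.S17lib.NC.Equivariant

set_option autoImplicit false

noncomputable section

namespace Fermat.Agent.S17lib.NC

open AlgebraicCurve Fermat.Agent.S18lib Fermat.Agent.S37lib.ES

variable {K F : Type*} [Field K] [Field F] [Algebra K F]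

/-- the additive height of a divisor, for a height `ht` of points -/
def divHt (ht : Place K F → ℝ) (D : Divisor K F) : ℝ := D.sum fun P n => (n : ℝ) * ht P

/-- the standard height of a point: the height of the value of `x` there (`0` at the poles) -/
def ptHt (x : F) (hv : K → ℝ) (P : Place K F) : ℝ := (valAt x P).elim 0 hv

theorem ptHt_nonneg (x : F) {hv : K → ℝ} (hv0 : ∀ c, 0 ≤ hv c) (P : Place K F) :
    0 ≤ ptHt x hv P := by
  unfold ptHt
  cases valAt x P with
  | none => exact le_refl _
  | some c => exact hv0 c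

theorem ptHt_of_valAt {x : F} {hv : K → ℝ} {P : Place K F} {c : K} (h : valAt x P = some c) :
    ptHt x hv P = hv c := by
  unfold ptHt
  rw [h]
  rfl

theorem ht_le_divHt {ht : Place K F → ℝ} (hht0 : ∀ P, 0 ≤ ht P) {D : Divisor K F}
    (hD : ∀ v, 0 ≤ D v) {P : Place K F} (hP : D P ≠ 0) : ht P ≤ divHt ht D := by
  unfold divHt Finsupp.sum
  have hPs : P ∈ D.support := Finsupp.mem_support_iff.mpr hP
  have h1 : (D P : ℝ) * ht P ≤ ∑ Q ∈ D.support, (D Q : ℝ) * ht Q :=
    Finset.single_le_sum (f := fun Q => (D Q : ℝ) * ht Q)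
      (fun Q _ => mul_nonneg (by exact_mod_cast hD Q) (hht0 Q)) hPs
  have h2 : (1 : ℝ) ≤ (D P : ℝ) := by
    have := hD P
    exact_mod_cast (by omega : (1 : ℤ) ≤ D P)
  have h3 := hht0 P
  nlinarith

/-- for an effective divisor (all places of degree one) each multiplicity is at most the degree -/
theorem apply_le_degree (hdeg : ∀ Q : Place K F, Q.deg = 1) {D : Divisor K F}
    (hD : ∀ v, 0 ≤ D v) (P : Place K F) : D P ≤ Divisor.degree D := by
  classical
  rw [Cech.degree_eq_sum']
  by_cases hP : P ∈ D.support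
  · have := Finset.single_le_sum (f := fun v => D v * (v.deg : ℤ))
      (fun v _ => mul_nonneg (hD v) (Int.natCast_nonneg _)) hP
    simpa [hdeg P] using this
  · rw [Finsupp.notMem_support_iff] at hP
    rw [hP]
    exact Finset.sum_nonneg fun v _ => mul_nonneg (hD v) (Int.natCast_nonneg _)

/-- the support of an effective divisor has at most `deg D` points -/
theorem card_support_le_degree (hdeg : ∀ Q : Place K F, Q.deg = 1) {D : Divisor K F}
    (hD : ∀ v, 0 ≤ D v) : (D.support.card : ℤ) ≤ Divisor.degree D := by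
  rw [Cech.degree_eq_sum']
  have : ∑ v ∈ D.support, (1 : ℤ) ≤ ∑ v ∈ D.support, D v * (v.deg : ℤ) := by
    refine Finset.sum_le_sum fun v hv => ?_
    rw [hdeg v]
    have h1 := hD v
    have h2 := Finsupp.mem_support_iff.mp hv
    simp only [Nat.cast_one, mul_one]
    omega
  simpa using this

section Main

variable [HasPrincipalDivisors K F]

/-- **(NC), generic form.** Northcott for the height of the `inf`-reduced representative on the
classes fixed by all `ρ γ`. The hypothesis `hN` is a bounded-orbit Northcott property of the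
height `hv` on the constant field; the height `ht` of points is any nonnegative function with
`ht P = hv (x(P))` wherever `x` has a value. -/
theorem finite_fixed_classes (hdeg : ∀ Q : Place K F, Q.deg = 1) (inf : Place K F)
    {Γ : Type*} (ρ : Γ → SemilinearAut K F) (hρinf : ∀ γ, ρ γ • inf = inf)
    (x : F) (hxc : ∀ c : K, x ≠ algebraMap K F c) (hρx : ∀ γ, ρ γ • x = x)
    (hv : K → ℝ) (ht : Place K F → ℝ) (hht0 : ∀ P, 0 ≤ ht P)
    (hhtv : ∀ P c, valAt x P = some c → ht P = hv c)
    (hN : ∀ (d : ℕ) (B : ℝ), ∃ T : Set K, T.Finite ∧ ∀ S : Finset K, S.card ≤ d →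
      (∀ γ, ∀ c ∈ S, SemilinearAut.baseAut (ρ γ) c ∈ S) → (∀ c ∈ S, hv c ≤ B) →
      (S : Set K) ⊆ T)
    (d : ℕ) (B : ℝ) :
    {w : Pic0 K F | (∀ γ, ρ γ • w = w) ∧ ∃ D, IsRed inf (hdeg inf) D w ∧
      Divisor.degree D ≤ d ∧ divHt ht D ≤ B}.Finite := by
  classical
  obtain ⟨T, hTfin, hT⟩ := hN d B
  -- the finite set of places where `x` has a pole or a value in `T`
  set Sfin : Set (Place K F) := {Q | valAt x Q = none} ∪ ⋃ c ∈ T, {Q | valAt x Q = some c}
    with hSfin
  have hSfin_fin : Sfin.Finite :=
    (finite_valAt_fibre hxc hdeg none).union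
      (hTfin.biUnion fun c _ => finite_valAt_fibre hxc hdeg (some c))
  -- the finite set of candidate divisors
  set 𝒟 : Finset (Divisor K F) :=
    hSfin_fin.toFinset.finsupp (fun _ => Finset.Icc (0 : ℤ) d) with h𝒟
  refine (𝒟.finite_toSet.image (clsInf inf (hdeg inf))).subset ?_
  rintro w ⟨hw, D, hDred, hDd, hDB⟩
  refine ⟨D, ?_, hDred.1.cls_eq⟩
  have hDnn := hDred.1.nonneg
  -- `D` is fixed by every `ρ γ`
  have hfix : ∀ γ, ρ γ • D = D := fun γ => hDred.smul_eq (ρ γ) (hρinf γ) (hw γ)
  -- the support of `D` is stable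
  have hstab : ∀ γ, ∀ P ∈ D.support, ρ γ • P ∈ D.support := by
    intro γ P hP
    rw [Finsupp.mem_support_iff] at hP ⊢
    have := SemilinearAut.divisor_smul_apply_smul (ρ γ) D P
    rw [hfix γ] at this
    rwa [this]
  -- the finite set of values of `x` on the support
  set S : Finset K := (D.support.image (valAt x)).eraseNone with hS
  have hScard : S.card ≤ d := by
    have h1 : S.card ≤ (D.support.image (valAt x)).card := by
      have : S.map Function.Embedding.some = (D.support.image (valAt x)).erase none :=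
        Finset.map_some_eraseNone _
      have h2 := congrArg Finset.card this
      rw [Finset.card_map] at h2
      rw [h2]
      exact Finset.card_erase_le
    have h2 : (D.support.image (valAt x)).card ≤ D.support.card := Finset.card_image_le
    have h3 := card_support_le_degree hdeg hDnn
    have : (S.card : ℤ) ≤ d := by
      have : (S.card : ℤ) ≤ D.support.card := by exact_mod_cast h1.trans h2
      omega
    exact_mod_cast this
  have hSmem : ∀ c, c ∈ S ↔ ∃ P ∈ D.support, valAt x P = some c := by
    intro c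
    rw [hS, Finset.mem_eraseNone, Finset.mem_image]
  have hSstab : ∀ γ, ∀ c ∈ S, SemilinearAut.baseAut (ρ γ) c ∈ S := by
    intro γ c hc
    obtain ⟨P, hP, hPc⟩ := (hSmem c).mp hc
    refine (hSmem _).mpr ⟨ρ γ • P, hstab γ P hP, ?_⟩
    rw [valAt_smul (ρ γ) (hρx γ) P, hPc, Option.map_some]
  have hSB : ∀ c ∈ S, hv c ≤ B := by
    intro c hc
    obtain ⟨P, hP, hPc⟩ := (hSmem c).mp hc
    rw [← hhtv P c hPc]
    exact (ht_le_divHt hht0 hDnn (Finsupp.mem_support_iff.mp hP)).trans hDB
  have hST := hT S hScard hSstab hSB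
  -- conclusion
  rw [Finset.mem_coe, h𝒟, Finset.mem_finsupp_iff]
  refine ⟨?_, fun P _ => ?_⟩
  · intro P hP
    rw [Set.Finite.mem_toFinset, hSfin]
    cases hPv : valAt x P with
    | none => exact Or.inl hPv
    | some c =>
      right
      have hcS : c ∈ S := (hSmem c).mpr ⟨P, hP, hPv⟩
      exact Set.mem_biUnion (hST hcS) hPv
  · rw [Finset.mem_Icc]
    exact ⟨hDnn P, (apply_le_degree hdeg hDnn P).trans hDd⟩

end Main

end Fermat.Agent.S17lib.NC
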