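/-
S17lib / NC / Bridge  (helper2) — Project G (S17): the blocks (CAN) and (NC) of `S17lib/Iface.lean`
(helper7's concrete objects `Pl inf`, `cls`, `ptHeight`, `IsInfReduced`, `classHeight`) from the
generic theory of `NC/Equivariant.lean`, `NC/Finite.lean`.

* `toDiv inf : (Pl inf →₀ ℕ) →+ Divisor K F`, `cls_eq_clsInf`, `degree_toDiv`, `hE_eq_divHt`;
* `isInfReduced_iff_isRed`;
* `can_of_isCurveOfGenus : IsCurveOfGenus K F g → CAN (cls inf hdeg) g`   (Riemann's inequality);
* `nc_of_can` : (CAN) + bounded-orbit Northcott on `K` ⇒ (NC) on any subgroup of fixed classes.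
-/
import Mathlib
import Fermat.Agent.S17lib.Iface
import Fermat.Agent.S17lib.NC.Finite
import Fermat.Agent.S18lib.Setup.CurveRR

set_option autoImplicit false

noncomputable section

namespace Fermat.Agent.S17lib.NC

open AlgebraicCurve Fermat.Agent.S18lib Fermat.Agent.S37lib.ES Fermat.Agent.S17lib

variable {K F : Type*} [Field K] [Field F] [Algebra K F]

/-! ### effective divisors on the points as divisors -/

/-- an effective divisor on the points `≠ inf`, as a divisor -/
def toDiv (inf : Place K F) : (Pl inf →₀ ℕ) →+ Divisor K F :=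
  (Finsupp.mapDomain.addMonoidHom (Subtype.val : Pl inf → Place K F)).comp
    (Finsupp.mapRange.addMonoidHom (Nat.castAddMonoidHom ℤ))

variable {inf : Place K F}

theorem toDiv_def (D : Pl inf →₀ ℕ) :
    toDiv inf D = Finsupp.mapDomain (Subtype.val : Pl inf → Place K F)
      (Finsupp.mapRange (Nat.cast : ℕ → ℤ) Nat.cast_zero D) := rfl

@[simp] theorem toDiv_single (P : Pl inf) (n : ℕ) :
    toDiv inf (Finsupp.single P n) = Finsupp.single P.1 (n : ℤ) := by
  rw [toDiv_def, Finsupp.mapRange_single, Finsupp.mapDomain_single]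

theorem toDiv_apply_val (D : Pl inf →₀ ℕ) (P : Pl inf) : toDiv inf D P.1 = (D P : ℤ) := by
  rw [toDiv_def, Finsupp.mapDomain_apply Subtype.val_injective, Finsupp.mapRange_apply]

theorem toDiv_apply_inf (D : Pl inf →₀ ℕ) : toDiv inf D inf = 0 := by
  rw [toDiv_def]
  refine Finsupp.mapDomain_of_notMem_range _ _ ?_
  rintro ⟨P, hP⟩
  exact P.2 hP

theorem toDiv_nonneg (D : Pl inf →₀ ℕ) (v : Place K F) : 0 ≤ toDiv inf D v := by
  by_cases hv : v = inf
  · rw [hv, toDiv_apply_inf]
  · have := toDiv_apply_val D ⟨v, hv⟩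
    simp only at this
    rw [this]
    exact Int.natCast_nonneg _

theorem toDiv_injective : Function.Injective (toDiv inf : (Pl inf →₀ ℕ) → Divisor K F) := by
  intro D D' h
  ext P
  have h1 := toDiv_apply_val D P
  have h2 := toDiv_apply_val D' P
  rw [h] at h1
  exact_mod_cast h1.symm.trans h2

/-- every effective divisor without `inf` in its support comes from the points -/
theorem exists_toDiv_eq {D : Divisor K F} (hnn : ∀ v, 0 ≤ D v) (hinf : D inf = 0) :
    ∃ D₀ : Pl inf →₀ ℕ, toDiv inf D₀ = D := by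
  classical
  refine ⟨Finsupp.mapRange Int.toNat Int.toNat_zero
    (D.comapDomain (Subtype.val : Pl inf → Place K F) Subtype.val_injective.injOn), ?_⟩
  ext v
  by_cases hv : v = inf
  · rw [hv, toDiv_apply_inf, hinf]
  · have := toDiv_apply_val (Finsupp.mapRange Int.toNat Int.toNat_zero
      (D.comapDomain (Subtype.val : Pl inf → Place K F) Subtype.val_injective.injOn)) ⟨v, hv⟩
    simp only at this
    rw [this, Finsupp.mapRange_apply, Finsupp.comapDomain_apply]
    exact Int.toNat_of_nonneg (hnn v)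

theorem degree_toDiv (hdeg : ∀ P : Place K F, P.deg = 1) (D : Pl inf →₀ ℕ) :
    Divisor.degree (toDiv inf D) = (degE D : ℤ) := by
  induction D using Finsupp.induction_linear with
  | zero => simp [degE]
  | add D E hD hE => rw [map_add, map_add, hD, hE, degE_add]; push_cast; rfl
  | single P n => rw [toDiv_single, Divisor.degree_single, hdeg, degE_single]; simp

/-! ### heights -/

theorem divHt_add (ht : Place K F → ℝ) (D E : Divisor K F) :
    divHt ht (D + E) = divHt ht D + divHt ht E :=
  Finsupp.sum_add_index' (fun P => by simp) (fun P a b => by push_cast; ring)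

theorem divHt_single (ht : Place K F → ℝ) (P : Place K F) (n : ℤ) :
    divHt ht (Finsupp.single P n) = n * ht P := by
  simp [divHt]

theorem hE_eq_divHt (ht : Place K F → ℝ) (D : Pl inf →₀ ℕ) :
    hE (fun P : Pl inf => ht P.1) D = divHt ht (toDiv inf D) := by
  induction D using Finsupp.induction_linear with
  | zero => simp [hE, divHt]
  | add D E hD hE' => rw [hE_add, map_add, divHt_add, hD, hE']
  | single P n => rw [hE_single, toDiv_single, divHt_single]; simp

/-! ### the class map -/

theorem clsInf_zero (hinf : inf.deg = 1) : clsInf inf hinf (0 : Divisor K F) = 0 := by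
  have h := clsInf_add inf hinf (0 : Divisor K F) 0
  rw [add_zero] at h
  exact left_eq_add.mp h

theorem cls_eq_clsInf (hdeg : ∀ P : Place K F, P.deg = 1) (D : Pl inf →₀ ℕ) :
    cls inf hdeg D = clsInf inf (hdeg inf) (toDiv inf D) := by
  induction D using Finsupp.induction_linear with
  | zero => rw [map_zero, map_zero, clsInf_zero]
  | add D E hD hE => rw [map_add, map_add, clsInf_add, hD, hE]
  | single P n =>
    rw [cls_single, toDiv_single]
    unfold clsInf Pic0.mk
    rw [← QuotientAddGroup.mk_nsmul]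
    refine congrArg _ (Subtype.ext ?_)
    show ((n • ptDiv inf hdeg P.1 : Divisor.degZero (K := K) (F := F)) : Divisor K F) =
      shiftInf inf (Finsupp.single P.1 (n : ℤ))
    rw [AddSubgroup.coe_nsmul]
    unfold ptDiv shiftInf
    simp only
    rw [Divisor.degree_single, hdeg, smul_sub, Finsupp.smul_single, Finsupp.smul_single]
    simp

theorem isRep_toDiv (hdeg : ∀ P : Place K F, P.deg = 1) (D : Pl inf →₀ ℕ) :
    IsRep inf (hdeg inf) (toDiv inf D) (cls inf hdeg D) :=
  ⟨toDiv_nonneg D, toDiv_apply_inf D, (cls_eq_clsInf hdeg D).symm⟩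

/-- helper7's `IsInfReduced` is the minimal-degree condition `IsRed` -/
theorem isInfReduced_iff_isRed [HasPrincipalDivisors K F] (hdeg : ∀ P : Place K F, P.deg = 1)
    (D : Pl inf →₀ ℕ) :
    IsInfReduced (cls inf hdeg) D ↔ IsRed inf (hdeg inf) (toDiv inf D) (cls inf hdeg D) := by
  constructor
  · intro hD
    refine ⟨isRep_toDiv hdeg D, fun D' hD' => ?_⟩
    obtain ⟨D₀, rfl⟩ := exists_toDiv_eq hD'.nonneg hD'.inf_eq
    by_contra hlt
    push Not at hlt
    rw [degree_toDiv hdeg, degree_toDiv hdeg] at hlt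
    have hle : degE D₀ ≤ degE D := by exact_mod_cast hlt.le
    have hcls : cls inf hdeg D₀ = cls inf hdeg D := by
      rw [cls_eq_clsInf hdeg D₀]
      exact hD'.cls_eq
    have := hD D₀ hle hcls
    rw [this] at hlt
    exact lt_irrefl _ hlt
  · intro hD D₁ hle hcls
    have hrep : IsRep inf (hdeg inf) (toDiv inf D₁) (cls inf hdeg D) := by
      rw [← hcls]
      exact isRep_toDiv hdeg D₁
    have hdeg1 : Divisor.degree (toDiv inf D₁) ≤ Divisor.degree (toDiv inf D) := by
      rw [degree_toDiv hdeg, degree_toDiv hdeg]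
      exact_mod_cast hle
    have hred : IsRed inf (hdeg inf) (toDiv inf D₁) (cls inf hdeg D) :=
      ⟨hrep, fun D' hD' => hdeg1.trans (hD.2 D' hD')⟩
    exact toDiv_injective (hred.unique hD)

/-! ### (CAN) from Riemann's inequality -/

/-- every class has an effective representative of degree `≤ g` without `inf` in its support -/
theorem exists_isRep_degree_le {g : ℕ} (hF : IsCurveOfGenus K F g) (inf : Place K F)
    (w : Pic0 K F) :
    ∃ D, IsRep inf (hF.deg_eq_one inf) D w ∧ Divisor.degree D ≤ g := by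
  have := hF.hasPrincipalDivisors
  obtain ⟨⟨E, hE0⟩, rfl⟩ := Pic0.mk_surjective w
  rw [Divisor.mem_degZero] at hE0
  have hinf : inf.deg = 1 := hF.deg_eq_one inf
  set E' : Divisor K F := E + Finsupp.single inf (g : ℤ) with hE'
  have hdegE' : Divisor.degree E' = g := by
    rw [hE', map_add, hE0, Divisor.degree_single, hinf]
    simp
  -- a nonzero function in `L(E + g inf)`
  have hpos : 0 < Module.finrank K (riemannRochSpace E') := by
    have := hF.riemann_le E'
    rw [hdegE'] at this
    omega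
  have : FiniteDimensional K (riemannRochSpace E') := hF.finiteDimensional E'
  have hnt : Nontrivial (riemannRochSpace E') := Module.finrank_pos_iff.mp hpos
  obtain ⟨⟨f, hfmem⟩, hf0⟩ := exists_ne (0 : riemannRochSpace E')
  have hf0' : f ≠ 0 := fun h => hf0 (Subtype.ext h)
  rw [Cech.mem_rr_of_ne hf0'] at hfmem
  -- the effective divisor `D₀ = E' + div f`
  set D₀ : Divisor K F := E' + divOf (K := K) f with hD₀
  have hD₀nn : ∀ v, 0 ≤ D₀ v := by
    intro v
    rw [hD₀, Finsupp.add_apply, divOf_apply hf0']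
    have := hfmem v
    omega
  have hD₀deg : Divisor.degree D₀ = g := by
    rw [hD₀, map_add, hdegE', degree_divOf, add_zero]
  set k : ℤ := D₀ inf with hk
  refine ⟨D₀ - Finsupp.single inf k, ⟨fun v => ?_, ?_, ?_⟩, ?_⟩
  · rw [Finsupp.sub_apply]
    by_cases hv : v = inf
    · subst hv
      rw [Finsupp.single_eq_same, hk]
      omega
    · rw [Finsupp.single_eq_of_ne hv, sub_zero]
      exact hD₀nn v
  · rw [Finsupp.sub_apply, Finsupp.single_eq_same, hk, sub_self]
  · unfold clsInf Pic0.mk
    rw [QuotientAddGroup.eq, AddSubgroup.mem_addSubgroupOf]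
    have : ((-(⟨shiftInf inf (D₀ - Finsupp.single inf k),
        degree_shiftInf (hF.deg_eq_one inf) _⟩ : Divisor.degZero (K := K) (F := F)) +
        ⟨E, hE0⟩ : Divisor.degZero (K := K) (F := F)) : Divisor K F) =
        -divOf (K := K) f := by
      push_cast
      unfold shiftInf
      rw [map_sub, hD₀deg, Divisor.degree_single, hinf, hD₀, hE', Finsupp.single_sub]
      simp only [Nat.cast_one, mul_one]
      abel
    rw [this]
    exact neg_mem (divOf_mem_principal hf0')
  · rw [map_sub, hD₀deg, Divisor.degree_single, hinf]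
    have := hD₀nn inf
    simp only [Nat.cast_one, mul_one]
    omega

/-- **(CAN)**: every class has an `inf`-reduced representative of degree `≤ g` -/
theorem can_of_isCurveOfGenus {g : ℕ} (hF : IsCurveOfGenus K F g) (inf : Place K F)
    (hdeg : ∀ P : Place K F, P.deg = 1) : CAN (cls inf hdeg) g := by
  have := hF.hasPrincipalDivisors
  intro w
  obtain ⟨D₁, hD₁, hdeg₁⟩ := exists_isRep_degree_le hF inf w
  obtain ⟨D₂, hD₂⟩ := exists_isRed_of_isRep hD₁
  obtain ⟨D, rfl⟩ := exists_toDiv_eq hD₂.1.nonneg hD₂.1.inf_eq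
  have hcls : cls inf hdeg D = w := by
    rw [cls_eq_clsInf hdeg D]
    exact hD₂.1.cls_eq
  refine ⟨D, hcls, ?_, ?_⟩
  · have h1 := hD₂.2 D₁ hD₁
    rw [degree_toDiv hdeg] at h1
    exact_mod_cast h1.trans hdeg₁
  · rw [isInfReduced_iff_isRed hdeg D, hcls]
    exact hD₂

/-! ### (NC) -/

theorem valueAt_eq_of_valAt {t : F} (htc : ∀ c : K, t ≠ algebraMap K F c) {P : Place K F}
    {c : K} (h : valAt t P = some c) : valueAt P t = c := by
  classical
  rw [valAt_eq_some_iff] at h
  have hex : ∃ c : K, HasValueAt P t c := ⟨c, Or.inr h⟩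
  unfold valueAt
  rw [dif_pos hex]
  rcases hex.choose_spec with h1 | h1
  · exact absurd h1 (htc _)
  · exact eq_of_ord_sub_pos h1 h

/-- **(NC)** from (CAN) and the bounded-orbit Northcott property of the height `hK` on `K`, on any
subgroup `G` of classes fixed by all `ρ γ`. -/
theorem nc_of_can [HasPrincipalDivisors K F] (hdeg : ∀ P : Place K F, P.deg = 1)
    (inf : Place K F) {Γ : Type*} (ρ : Γ → SemilinearAut K F) (hρinf : ∀ γ, ρ γ • inf = inf)
    (t : F) (htc : ∀ c : K, t ≠ algebraMap K F c) (hρt : ∀ γ, ρ γ • t = t)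
    (hK : K → ℝ) (hK0 : ∀ c, 0 ≤ hK c)
    (hN : ∀ (d : ℕ) (B : ℝ), ∃ T : Set K, T.Finite ∧ ∀ S : Finset K, S.card ≤ d →
      (∀ γ, ∀ c ∈ S, SemilinearAut.baseAut (ρ γ) c ∈ S) → (∀ c ∈ S, hK c ≤ B) →
      (S : Set K) ⊆ T)
    (g : ℕ) (hCAN : CAN (cls inf hdeg) g) (G : AddSubgroup (Pic0 K F))
    (hG : ∀ w ∈ G, ∀ γ, ρ γ • w = w) :
    NC (ptHeight hK t inf) (cls inf hdeg) G := by
  intro B'
  set ht : Place K F → ℝ := fun P => hK (valueAt P t) with hht
  have key := finite_fixed_classes hdeg inf ρ hρinf t htc hρt hK ht (fun P => hK0 _)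
    (fun P c hc => by rw [hht]; simp only; rw [valueAt_eq_of_valAt htc hc]) hN g B'
  refine (key.preimage (Subtype.val_injective.injOn)).subset ?_
  intro x hx
  change classHeight _ _ _ ≤ B' at hx
  obtain ⟨D, hD1, hD2, hD3⟩ := hCAN (x : Pic0 K F)
  rw [classHeight_eq _ _ hD1 hD3] at hx
  refine ⟨hG _ x.2, toDiv inf D, ?_, ?_, ?_⟩
  · rw [← hD1]
    exact (isInfReduced_iff_isRed hdeg D).mp hD3
  · rw [degree_toDiv hdeg]
    exact_mod_cast hD2
  · rw [← hE_eq_divHt ht D]
    exact hx

end Fermat.Agent.S17lib.NC
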