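/-
S17lib / NC / Modular  (helper2) — Project G (S17), block (NC), the modular instance:
Northcott on `J₀(N)(ℚ) = J₀(N)(ℚ̄)^{G_ℚ}` for the height of the `∞`-reduced representative,
for any `G_ℚ`-fixed nonconstant function `x` and any height `hv` on `ℚ̄` with the bounded-degree
Northcott property.
-/
import Mathlib
import Fermat.Agent.S17lib.NC.Bridge
import Fermat.Agent.S17lib.WMW.Main
import Fermat.Agent.S15lib.Cusp.Inf
import Fermat.Agent.S18lib.Gin0.Genus

set_option autoImplicit false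
set_option linter.unusedSectionVars false

noncomputable section

namespace Fermat.Agent.S17lib.NC

open AlgebraicCurve ModularCurve Polynomial
open Fermat.Agent.S15lib Fermat.Agent.S17lib.WMW

local notation "Qb" => AlgebraicClosure ℚ
local notation "GQ" => (AlgebraicClosure ℚ ≃ₐ[ℚ] AlgebraicClosure ℚ)

/-- a `G_ℚ`-stable finite subset of `ℚ̄` with at most `d` elements consists of elements of
degree at most `d` -/
theorem natDegree_minpoly_le_of_stable (S : Finset Qb) (hS : ∀ σ : GQ, ∀ c ∈ S, σ c ∈ S)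
    {c : Qb} (hc : c ∈ S) : (minpoly ℚ c).natDegree ≤ S.card := by
  classical
  have hint : IsIntegral ℚ c := Algebra.IsIntegral.isIntegral c
  have hsep : (minpoly ℚ c).Separable := (minpoly.irreducible hint).separable
  have hsplit : ((minpoly ℚ c).map (algebraMap ℚ Qb)).Splits := IsAlgClosed.splits _
  have hnodup : ((minpoly ℚ c).aroots Qb).Nodup := nodup_roots hsep.map
  have hcard : ((minpoly ℚ c).aroots Qb).toFinset.card = (minpoly ℚ c).natDegree := by
    rw [Multiset.toFinset_card_of_nodup hnodup, aroots_def, ← hsplit.natDegree_eq_card_roots,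
      natDegree_map]
  rw [← hcard]
  refine Finset.card_le_card fun β hβ => ?_
  rw [Multiset.mem_toFinset, ← isConjRoot_iff_mem_minpoly_aroots hint,
    isConjRoot_iff_exists_algEquiv] at hβ
  obtain ⟨σ, hσ⟩ := hβ
  have := hS σ⁻¹ c hc
  have h2 : σ⁻¹ c = β := by
    rw [← hσ]
    exact σ.symm_apply_apply β
  rwa [h2] at this

/-- bounded-orbit Northcott on `ℚ̄` from bounded-degree Northcott -/
theorem boundedOrbit_of_boundedDegree (hv : Qb → ℝ)
    (hnc : ∀ (d : ℕ) (B : ℝ), {c : Qb | (minpoly ℚ c).natDegree ≤ d ∧ hv c ≤ B}.Finite)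
    (d : ℕ) (B : ℝ) :
    ∃ T : Set Qb, T.Finite ∧ ∀ S : Finset Qb, S.card ≤ d →
      (∀ σ : GQ, ∀ c ∈ S, σ c ∈ S) → (∀ c ∈ S, hv c ≤ B) → (S : Set Qb) ⊆ T :=
  ⟨_, hnc d B, fun S hSd hS hSB c hc =>
    ⟨(natDegree_minpoly_le_of_stable S hS hc).trans hSd, hSB c hc⟩⟩

variable (N : ℕ) [NeZero N]

/-- **(NC) for `J₀(N)(ℚ)`**: finitely many rational classes whose `∞`-reduced representative has
degree `≤ d` and height `≤ B`. -/
theorem finite_JQ_height_le (x : FB N) (hxc : ∀ c : Qb, x ≠ algebraMap Qb (FB N) c)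
    (hx : ∀ σ : GQ, gal N σ • x = x) (hv : Qb → ℝ) (ht : Place Qb (FB N) → ℝ)
    (hht0 : ∀ P, 0 ≤ ht P) (hhtv : ∀ P c, S37lib.ES.valAt x P = some c → ht P = hv c)
    (hnc : ∀ (d : ℕ) (B : ℝ), {c : Qb | (minpoly ℚ c).natDegree ≤ d ∧ hv c ≤ B}.Finite)
    (d : ℕ) (B : ℝ) :
    {w : JQ N | ∃ D, IsRed (Cusp.cInf N) (S37lib.HeckeInst.deg_eq_one N _) D (w : JZero N) ∧
      Divisor.degree D ≤ d ∧ divHt ht D ≤ B}.Finite := by
  have := S37lib.HeckeInst.hasPrincipalDivisors_FB N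
  have key := finite_fixed_classes (K := Qb) (F := FB N) (S37lib.HeckeInst.deg_eq_one N)
    (Cusp.cInf N) (Γ := GQ) (fun σ => gal N σ) (fun σ => Cusp.gal_smul_cInf N σ) x hxc hx hv ht hht0 hhtv
    (fun d B => by
      obtain ⟨T, hT, h⟩ := boundedOrbit_of_boundedDegree hv hnc d B
      exact ⟨T, hT, fun S hSd hS hSB => h S hSd (fun σ c hc => hS σ c hc) hSB⟩) d B
  refine (key.preimage (Subtype.val_injective.injOn)).subset ?_
  rintro w ⟨D, hD, hDd, hDB⟩
  refine ⟨fun σ => ?_, D, hD, hDd, hDB⟩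
  exact w.2 σ

/-! ### the blocks (CAN) and (NC) of `S17lib/Iface.lean` for `X₀(N)` -/

theorem can_mono {Pl J : Type*} [AddCommGroup J] {c : (Pl →₀ ℕ) →+ J} {g g' : ℕ}
    (h : CAN c g) (hgg : g ≤ g') : CAN c g' := fun w => by
  obtain ⟨D, h1, h2, h3⟩ := h w
  exact ⟨D, h1, h2.trans hgg, h3⟩

/-- **(CAN) for `X₀(N)`**, base point the cusp `∞`, with some `g ≥ 1` -/
theorem exists_can_FB :
    ∃ g : ℕ, 1 ≤ g ∧ CAN (cls (Cusp.cInf N) (S37lib.HeckeInst.deg_eq_one N)) g := by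
  obtain ⟨g, hF, -⟩ := S18lib.Gin0.exists_isCurveOfGenus_FBar N
  exact ⟨max g 1, le_max_right _ _,
    can_mono (can_of_isCurveOfGenus hF (Cusp.cInf N) (S37lib.HeckeInst.deg_eq_one N))
      (le_max_left _ _)⟩

/-- **(NC) for `J₀(N)(ℚ)`** in the shape of `S17lib/Iface.lean`, for any `G_ℚ`-fixed nonconstant
function `t` and any nonnegative height `hK` on `ℚ̄` with the bounded-degree Northcott property. -/
theorem nc_FB (t : FB N) (htc : ∀ c : Qb, t ≠ algebraMap Qb (FB N) c)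
    (ht : ∀ σ : GQ, gal N σ • t = t) (hK : Qb → ℝ) (hK0 : ∀ c, 0 ≤ hK c)
    (hnc : ∀ (d : ℕ) (B : ℝ), {c : Qb | (minpoly ℚ c).natDegree ≤ d ∧ hK c ≤ B}.Finite)
    (g : ℕ) (hCAN : CAN (cls (Cusp.cInf N) (S37lib.HeckeInst.deg_eq_one N)) g) :
    NC (ptHeight hK t (Cusp.cInf N)) (cls (Cusp.cInf N) (S37lib.HeckeInst.deg_eq_one N))
      (JQ N) := by
  have := S37lib.HeckeInst.hasPrincipalDivisors_FB N
  refine nc_of_can (K := Qb) (F := FB N) (S37lib.HeckeInst.deg_eq_one N) (Cusp.cInf N)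
    (Γ := GQ) (fun σ => gal N σ) (fun σ => Cusp.gal_smul_cInf N σ) t htc ht hK hK0
    (fun d B => ?_) g hCAN (JQ N) (fun w hw σ => hw σ)
  obtain ⟨T, hT, h⟩ := boundedOrbit_of_boundedDegree hK hnc d B
  exact ⟨T, hT, fun S hSd hS hSB => h S hSd (fun σ c hc => hS σ c hc) hSB⟩

end Fermat.Agent.S17lib.NC
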