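/-
S17lib / NC / Four  (helper2) — Project G (S17): four of the six blocks of `S17lib/Iface.lean` for
`X₀(N)` with base point the cusp `∞`:  (CAN), (TORS), (WMW), (NC);  and S17 from (RED) + (CM).
-/
import Mathlib
import Fermat.Agent.S17lib.NC.Modular
import Fermat.Agent.S17lib.NC.FunT
import Fermat.Agent.S19lib.T.Tors

set_option autoImplicit false
set_option linter.unusedSectionVars false

noncomputable section

namespace Fermat.Agent.S17lib.NC

open AlgebraicCurve ModularCurve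
open Fermat.Agent.S15lib Fermat.Agent.S17lib.WMW

local notation "Qb" => AlgebraicClosure ℚ
local notation "GQ" => (AlgebraicClosure ℚ ≃ₐ[ℚ] AlgebraicClosure ℚ)

variable (N : ℕ) [NeZero N]

/-- **(TORS)** for `J₀(N)` -/
theorem tors_JZero : TORS (JZero N) := by
  intro m hm
  refine (S19lib.T.finite_tors_nat N m (by omega)).subset fun T hT => ?_
  rw [SetLike.mem_coe, Submodule.mem_torsionBy_iff, natCast_zsmul]
  exact hT

/-- **(DIV)**: `J₀(N)(ℚ̄)` is divisible (U1), in the shape of `cm_of_gendiv` -/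
theorem div_JZero : ∀ m : ℕ, 1 ≤ m → ∀ y : JZero N, ∃ z : JZero N, m • z = y := fun m hm y =>
  Fermat.Agent.S15lib.Desc.divisibleAt_Qb (by omega : 0 < m) (Fermat.Agent.S37lib.HeckeInst.FB N)
    (Fermat.Agent.S37lib.HeckeInst.jB N) (Fermat.Agent.S37lib.HeckeInst.transcendental_jB N)
    (Fermat.Agent.S37lib.HeckeInst.finiteDimensional_jB N) y

/-- **(WMW)** for `J₀(N)(ℚ)` -/
theorem wmw_JQ : WMW (JQ N) := fun m hm => wmw_odd N m hm

/-- **S17 from (RED) and (CM)** (for the genus bound `g` delivered by (CAN)). -/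
theorem s17_of_red_cm (t : FB N) (htc : ∀ c : Qb, t ≠ algebraMap Qb (FB N) c)
    (ht : ∀ σ : GQ, gal N σ • t = t) (hK : Qb → ℝ) (hK0 : ∀ c, 0 ≤ hK c)
    (hnc : ∀ (d : ℕ) (B : ℝ), {c : Qb | (minpoly ℚ c).natDegree ≤ d ∧ hK c ≤ B}.Finite)
    (hREDCM : ∀ g : ℕ, 1 ≤ g →
      CAN (cls (Cusp.cInf N) (S37lib.HeckeInst.deg_eq_one N)) g →
      RED (ptHeight hK t (Cusp.cInf N)) (cls (Cusp.cInf N) (S37lib.HeckeInst.deg_eq_one N)) g ∧
      CM (ptHeight hK t (Cusp.cInf N)) (cls (Cusp.cInf N) (S37lib.HeckeInst.deg_eq_one N)) g) :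
    AddGroup.FG ↥(JQ N) := by
  obtain ⟨g, hg, hCAN⟩ := exists_can_FB N
  obtain ⟨hRED, hCM⟩ := hREDCM g hg hCAN
  exact s17_of_blocks N hK t (Cusp.cInf N) (S37lib.HeckeInst.deg_eq_one N) g hg hCAN hRED hCM
    (tors_JZero N) (wmw_JQ N) (nc_FB N t htc ht hK hK0 hnc g hCAN)

/-- **S17 from (RED) and (CM)**, for the function `t` of block (T): nonconstant, `G_ℚ`-fixed, poles
only at the cusp `∞`. -/
theorem s17_of_red_cm_t (hK : Qb → ℝ) (hK0 : ∀ c, 0 ≤ hK c)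
    (hnc : ∀ (d : ℕ) (B : ℝ), {c : Qb | (minpoly ℚ c).natDegree ≤ d ∧ hK c ≤ B}.Finite)
    (hREDCM : ∀ t : FB N, (∀ c : Qb, t ≠ algebraMap Qb (FB N) c) → (∀ σ : GQ, gal N σ • t = t) →
      (∀ P : Place Qb (FB N), P ≠ Cusp.cInf N → 0 ≤ P.ord t) → ∀ g : ℕ, 1 ≤ g →
      CAN (cls (Cusp.cInf N) (S37lib.HeckeInst.deg_eq_one N)) g →
      RED (ptHeight hK t (Cusp.cInf N)) (cls (Cusp.cInf N) (S37lib.HeckeInst.deg_eq_one N)) g ∧
      CM (ptHeight hK t (Cusp.cInf N)) (cls (Cusp.cInf N) (S37lib.HeckeInst.deg_eq_one N)) g) :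
    AddGroup.FG ↥(JQ N) := by
  obtain ⟨t, htc, ht, hreg⟩ := exists_t N
  exact s17_of_red_cm N t htc ht hK hK0 hnc (hREDCM t htc ht hreg)

end Fermat.Agent.S17lib.NC
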