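/-
S17lib / NC / RedBridge  (helper2) — Project G (S17): the bridge from helper1's statement
`Red.RedStmt inf t` (effective `ℤ`-divisors, `ℓ(D') = 1`, heights `h1 (LSb.Core.valAt P t)`) to the
block `RED (ptHeight h1 t inf) (cls inf hdeg) g'` of `S17lib/Iface.lean`.
-/
import Mathlib
import Fermat.Agent.S17lib.Red.Stmt
import Fermat.Agent.S17lib.Height
import Fermat.Agent.S17lib.Glue

set_option autoImplicit false

noncomputable section

namespace Fermat.Agent.S17lib.NC

open AlgebraicCurve Fermat.Agent.S18lib Fermat.Agent.S17lib Fermat.Agent.S17lib.HT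
open Fermat.Agent.S17lib.Red

section Generic

variable {K F : Type*} [Field K] [Field F] [Algebra K F]

/-- the two "value at a place" functions agree (both are `0` where there is no value) -/
theorem lsb_valAt_eq_valueAt (P : Place K F) (t : F) :
    Fermat.Agent.LSb.Core.valAt P t = valueAt P t := by
  classical
  have hiff : ∀ c : K, Fermat.Agent.LSb.Core.VanishAt P (t - algebraMap K F c) ↔
      HasValueAt P t c := by
    intro c
    rw [Fermat.Agent.LSb.Core.vanishAt_iff]
    unfold HasValueAt
    constructor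
    · rintro (h | h)
      · exact Or.inl (sub_eq_zero.mp h)
      · exact Or.inr (by omega)
    · rintro (h | h)
      · exact Or.inl (sub_eq_zero.mpr h)
      · exact Or.inr (by omega)
  by_cases hex : ∃ c : K, HasValueAt P t c
  · obtain ⟨c, hc⟩ := hex
    rw [valueAt_eq hc, Fermat.Agent.LSb.Core.valAt_eq_of_vanishAt ((hiff c).mpr hc)]
  · have hex' : ¬ ∃ c : K, Fermat.Agent.LSb.Core.VanishAt P (t - algebraMap K F c) := by
      rintro ⟨c, hc⟩
      exact hex ⟨c, (hiff c).mp hc⟩
    unfold valueAt Fermat.Agent.LSb.Core.valAt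
    rw [dif_neg hex, dif_neg hex']

end Generic

variable {F : Type*} [Field F] [Algebra Qb F]

/-- helper1's divisor height is the additive height of `Iface.lean` -/
theorem divH_toDiv_embPl (t : F) (inf : Place Qb F) (D : Pl inf →₀ ℕ) :
    divH t (toDiv (embPl inf D)) = hE (ptHeight h1 t inf) D := by
  have h1' : hE (ptHeight h1 t inf) D = hE (fun P : Place Qb F => ptH t P) (embPl inf D) := by
    rw [hE_embPl]
    congr 1
    funext P
    unfold ptHeight ptH
    rw [lsb_valAt_eq_valueAt]
  rw [h1']
  unfold divH hE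
  rw [show toDiv (embPl inf D) = Finsupp.mapRange (Nat.cast : ℕ → ℤ) Nat.cast_zero (embPl inf D)
    from rfl]
  rw [Finsupp.sum_mapRange_index (fun P => by simp)]
  refine Finsupp.sum_congr fun P _ => ?_
  push_cast
  rfl

/-- **the bridge**: helper1's `RedStmt` gives the block (RED) of `Iface.lean` (for any bound `g'`
for which (CAN) holds) -/
theorem red_of_redStmt {g : ℕ} {inf : Place Qb F} {t : F} (hS : RedSetting g inf t)
    (hR : RedStmt inf t) (g' : ℕ) (hCAN : CAN (cls inf hS.curve.deg_eq_one) g') :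
    RED (ptHeight h1 t inf) (cls inf hS.curve.deg_eq_one) g' := by
  have hF := hS.curve
  obtain ⟨A, B, hA, hB, hAB⟩ := hR (g' * g' + g')
  refine ⟨A + 1, B, by linarith, fun D hD => ?_⟩
  obtain ⟨D', hD'cls, -, hD'red⟩ := hCAN (cls inf hF.deg_eq_one D)
  rw [classHeight_eq _ _ hD'cls hD'red]
  have hfin : Module.finrank Qb (riemannRochSpace (toDiv (embPl inf D'))) = 1 :=
    (isInfReduced_iff_finrank hF D').mp hD'red
  -- the principal divisor condition
  have hprin : (toDiv (embPl inf D') - Divisor.degree (toDiv (embPl inf D')) •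
        Finsupp.single inf (1 : ℤ)) -
      (toDiv (embPl inf D) - Divisor.degree (toDiv (embPl inf D)) • Finsupp.single inf (1 : ℤ)) ∈
      Divisor.principal (K := Qb) (F := F) := by
    have hc : clsHom hF.deg_eq_one inf (embPl inf D) = clsHom hF.deg_eq_one inf (embPl inf D') := by
      rw [← cls_eq_clsHom, ← cls_eq_clsHom, hD'cls]
    obtain ⟨f, hf0, hf⟩ := (clsHom_eq_iff hF.deg_eq_one inf _ _).mp hc
    refine ⟨f, hf0, fun v => ?_⟩
    rw [← hf v]
    unfold relDiv
    rw [degree_toDiv hF.deg_eq_one, degree_toDiv hF.deg_eq_one, Finsupp.smul_single,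
      Finsupp.smul_single, smul_eq_mul, smul_eq_mul, mul_one, mul_one]
    rfl
  have hdegD : Divisor.degree (toDiv (embPl inf D)) ≤ ((g' * g' + g' : ℕ) : ℤ) := by
    rw [degree_toDiv hF.deg_eq_one, degE_embPl]
    exact_mod_cast hD
  have key := hAB (toDiv (embPl inf D)) (toDiv (embPl inf D')) (toDiv_nonneg _) (toDiv_nonneg _)
    (by rw [toDiv_apply, embPl_inf]; rfl) (by rw [toDiv_apply, embPl_inf]; rfl) hdegD hprin hfin
  rw [divH_toDiv_embPl, divH_toDiv_embPl] at key
  have hnn : 0 ≤ hE (ptHeight h1 t inf) D :=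
    hE_nonneg _ (fun P => h1_nonneg _) D
  linarith

end Fermat.Agent.S17lib.NC
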